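import Fermat.Agent.M59.S38g.Seams
import Fermat.Agent.M59.EP.Seams
import Fermat.Agent.TW.Top.MachineOfEnd
import Fermat.Agent.TW.Top.PatchOfLv

/-!
M59 / box [C + S38g], cell [HARD], flat mode, LEVELS 4-7 (helper14, box owner).  Prefix `m59m_`.

The NATIVE (machine) vocabulary of the twin of the landed S43 machine, and the twins of its last
four wirings.  Nothing here mentions elliptic curves.

* `m59m_IsHarmless p ρ̄ ℓ` : `ℓ ≡ -1 (p)` and `tr ρ̄(Frob_ℓ) ≠ 0` (no `ℓ`-new form is congruent to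
  `ρ̄`: the eigenvalue ratio of `ρ̄(Frob_ℓ)` is not `ℓ^{±1}`).  The rigidifier of `p = 3` is such a
  prime.
* `m59m_Ctx p N q S θ ρ̄ Sram` : THE CONTEXT of the machine.  `p ∈ {3, 5}`, `N` squarefree prime to
  `p` and RIGID (`m59ep_Rigid p N`), `Sram` = the set of ALL primes `≠ p` at which `ρ̄` is ramified
  (they divide `N`); every other prime `ℓ ∣ N` is hard (`ℓ ≡ 1 (p)`, Frobenius scalar) or harmless
  (`ℓ ≢ 1 (p)`); `q ∣ N` is hard.  (Main's machine: `Sram = {2}`, no harmless prime, `p ≥ 5`.)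
* `m59m_Th p N Sram` : the hard primes of the level (main: `twt_ci_Th N`).
* `m59m_LiftOf p θ q` : the conclusion of `twt_Machine2_stmt`.
* seams `m59m_Machine_stmt`, `m59m_End_stmt`, `m59m_Patch_stmt`, `m59m_PatchLv_stmt` : twins of
  `twt_Machine2_stmt`, `twt_End_stmt`, `twt_Patch_stmt`, `twt_PatchLv_stmt` in that context.
* `m59m_M2LG_stmt` : twin of `twe_M2LG4_stmt` (the input of the twin of `twc_pm_main4`);
  `m59m_Harmless_stmt` : unipotent inertia at a harmless prime is trivial.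
* PROVED wirings (twins of `twt_patch_of_lvStmt`, `twt_end_of_patch`, `twt_machine2_of_end`):
  `m59m_patch_of_lvStmt`, `m59m_end_of_patch`, `m59m_machine_of_end`, `m59m_machine_of_lvStmt`.
-/

set_option autoImplicit false
set_option linter.style.haveILetI false
set_option linter.unusedSectionVars false

open Polynomial CuspForm IsLocalRing Fermat.Agent.TW Fermat.Agent.S53 Fermat.Agent.JT3

namespace Fermat.Agent.M59

/-- `ℓ` is harmless for `ρ̄`: `ℓ ≡ -1 mod p` and the trace of every Frobenius element at `ℓ` is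
non-zero.  (Then the eigenvalue ratio of `ρ̄(Frob_ℓ)` is not `ℓ^{±1}` and `ℓ ≢ 1 (p)`: every lift of
`ρ̄` with unipotent inertia at `ℓ` is unramified at `ℓ`.) -/
def m59m_IsHarmless {k : Type} [Field k] (p : ℕ) (ρbar : ResidualGaloisRep k) (ℓ : ℕ) : Prop :=
  ℓ % p = p - 1 ∧ ∀ A : ValuationSubring twt_Qb, A.LiesOverPrime ℓ →
    ∀ σ : twt_G, A.IsFrobeniusAt σ ℓ → (LinearMap.charpoly (ρbar.ρ σ)).coeff 1 ≠ 0

/-- **the context of the machine** (twin of the hypothesis list of `twt_Machine2_stmt`). -/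
structure m59m_Ctx (p : ℕ) {k : Type} [Field k] (N q : ℕ) [NeZero N] (S : Finset ℕ)
    (θ : heckeAlgebra N 2 (↑S : Set ℕ) →+* k) (ρbar : ResidualGaloisRep k) (Sram : Finset ℕ) :
    Prop where
  /-- `p ∈ {3, 5}` -/
  hp : p = 3 ∨ p = 5
  /-- the level is squarefree -/
  sq : Squarefree N
  /-- flat mode: the level is prime to `p` -/
  pN : ¬ p ∣ N
  /-- for `p = 3` the level has a prime divisor `≡ 2 mod 3` -/
  rigid : m59ep_Rigid p N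
  pS : p ∈ S
  NS : ∀ ℓ : ℕ, ℓ.Prime → ℓ ∣ N → ℓ ∈ S
  compat : twt_Compat θ ρbar
  nonEis : twt_NonEis θ
  abs : ρbar.IsAbsolutelyIrreducible
  tw : twt_TWHyp ρbar
  /-- `Sram` is EXACTLY the set of primes `≠ p` at which `ρ̄` is ramified -/
  ram : ∀ ℓ : ℕ, ℓ.Prime → ℓ ≠ p → (ℓ ∈ Sram ↔ ¬ ρbar.IsUnramifiedAt ℓ)
  /-- the ramified primes divide the level -/
  ramN : ∀ ℓ ∈ Sram, ℓ.Prime ∧ ℓ ∣ N
  /-- the unramified primes `≡ 1 mod p` of the level are hard -/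
  hard : ∀ ℓ : ℕ, ℓ.Prime → ℓ ∣ N → ℓ ∉ Sram → ℓ % p = 1 → twt_FrobScalar ρbar ℓ
  /-- the other unramified primes of the level are harmless -/
  harmless : ∀ ℓ : ℕ, ℓ.Prime → ℓ ∣ N → ℓ ∉ Sram → ℓ % p ≠ 1 → m59m_IsHarmless p ρbar ℓ
  /-- the hard prime to be removed -/
  qp : q.Prime
  qN : q ∣ N
  qram : q ∉ Sram
  q1 : q % p = 1

section ctx

variable {p : ℕ} {k : Type} [Field k] {N q : ℕ} [NeZero N] {S : Finset ℕ}
  {θ : heckeAlgebra N 2 (↑S : Set ℕ) →+* k} {ρbar : ResidualGaloisRep k} {Sram : Finset ℕ}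

theorem m59m_Ctx.p_ne_two (h : m59m_Ctx p N q S θ ρbar Sram) : p ≠ 2 := by
  rcases h.hp with rfl | rfl <;> norm_num

theorem m59m_Ctx.p_prime (h : m59m_Ctx p N q S θ ρbar Sram) : p.Prime := by
  rcases h.hp with rfl | rfl <;> norm_num

theorem m59m_Ctx.q_ne_p (h : m59m_Ctx p N q S θ ρbar Sram) : q ≠ p := fun e =>
  h.pN (e ▸ h.qN)

theorem m59m_Ctx.p_not_mem (h : m59m_Ctx p N q S θ ρbar Sram) : p ∉ Sram := fun hm =>
  h.pN (h.ramN p hm).2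

theorem m59m_Ctx.q_unram (h : m59m_Ctx p N q S θ ρbar Sram) : ρbar.IsUnramifiedAt q := by
  by_contra hr
  exact h.qram ((h.ram q h.qp h.q_ne_p).mpr hr)

theorem m59m_Ctx.q_scalar (h : m59m_Ctx p N q S θ ρbar Sram) : twt_FrobScalar ρbar q :=
  h.hard q h.qp h.qN h.qram h.q1

end ctx

/-- the hard primes of the level: the primes `ℓ ∣ N`, `ℓ ∉ Sram`, `ℓ ≡ 1 mod p`
(main: `twt_ci_Th N`, the odd primes of `N`). -/
noncomputable def m59m_Th (p N : ℕ) (Sram : Finset ℕ) : Finset Nat.Primes :=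
  (N.primeFactors.filter fun ℓ => ℓ ∉ Sram ∧ ℓ % p = 1).subtype Nat.Prime

theorem m59m_mem_Th {p N : ℕ} (hN : N ≠ 0) (Sram : Finset ℕ) (ℓ : Nat.Primes) :
    ℓ ∈ m59m_Th p N Sram ↔ (ℓ : ℕ) ∣ N ∧ (ℓ : ℕ) ∉ Sram ∧ (ℓ : ℕ) % p = 1 := by
  have h : ℓ ∈ m59m_Th p N Sram ↔
      (ℓ : ℕ) ∈ N.primeFactors.filter fun ℓ => ℓ ∉ Sram ∧ ℓ % p = 1 := Finset.mem_subtype
  rw [h, Finset.mem_filter, Nat.mem_primeFactors]
  constructor
  · rintro ⟨⟨-, hd, -⟩, h1, h2⟩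
    exact ⟨hd, h1, h2⟩
  · rintro ⟨hd, h1, h2⟩
    exact ⟨⟨ℓ.2, hd, hN⟩, h1, h2⟩

/-- the hard primes are `≠ p` and `≡ 1 mod p` in the form used by the tame data of main. -/
theorem m59m_Th_spec {p N : ℕ} (hp : p.Prime) (hN : N ≠ 0) (hpN : ¬ p ∣ N) (Sram : Finset ℕ) :
    ∀ ℓ ∈ m59m_Th p N Sram, (ℓ : ℕ) ≠ p ∧ p ∣ (ℓ : ℕ) - 1 := by
  intro ℓ hℓ
  obtain ⟨hd, -, h1⟩ := (m59m_mem_Th hN Sram ℓ).mp hℓ
  refine ⟨fun h => hpN (h ▸ hd), ?_⟩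
  have h3 : (ℓ : ℕ) % p = 1 % p := by rw [h1, Nat.mod_eq_of_lt hp.one_lt]
  exact (Nat.modEq_iff_dvd' ℓ.2.one_lt.le).mp h3.symm

/-- the conclusion of the machine: a characteristic-`0` lift `χ` of `θ` of the same level with a
compatible Galois representation, residually absolutely irreducible, UNRAMIFIED at `q`. -/
def m59m_LiftOf (p : ℕ) {k : Type} [Field k] {N : ℕ} [NeZero N] {S : Finset ℕ}
    (θ : heckeAlgebra N 2 (↑S : Set ℕ) →+* k) (q : ℕ) : Prop :=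
  ∃ (𝒪 : Type) (_ : CommRing 𝒪) (_ : IsDomain 𝒪) (_ : IsDiscreteValuationRing 𝒪)
    (_ : IsAdicComplete (maximalIdeal 𝒪) 𝒪) (_ : Finite (ResidueField 𝒪)) (_ : CharZero 𝒪)
    (_ : Algebra k (ResidueField 𝒪))
    (χ : heckeAlgebra N 2 (↑S : Set ℕ) →+* 𝒪) (ρ : GaloisRepAdic 𝒪),
    (p : 𝒪) ∈ maximalIdeal 𝒪 ∧
    (∀ t : heckeAlgebra N 2 (↑S : Set ℕ), residue 𝒪 (χ t) = algebraMap k (ResidueField 𝒪) (θ t)) ∧
    twt_CompatAdic χ ρ ∧ ρ.residual.IsAbsolutelyIrreducible ∧ ρ.IsUnramifiedAt q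

/-- the coefficient rings produced by `twm0_coef`: `ζ_p ∈ 𝒪` and every monic quadratic over `k`
splits in the residue field. -/
def m59m_IsCoef (p : ℕ) (k : Type) [Field k] (𝒪 : Type) [CommRing 𝒪] [IsLocalRing 𝒪]
    [Algebra k (ResidueField 𝒪)] : Prop :=
  (p : 𝒪) ∈ maximalIdeal 𝒪 ∧ (∃ ζ : 𝒪, IsPrimitiveRoot ζ p) ∧
    ∀ g : k[X], g.Monic → g.natDegree = 2 →
      ∃ α β : ResidueField 𝒪, g.map (algebraMap k (ResidueField 𝒪)) = (X - C α) * (X - C β)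

/-- **[MACH-native]** twin of `twt_Machine2_stmt`. -/
def m59m_Machine_stmt : Prop :=
  ∀ (p : ℕ) [Fact p.Prime] (k : Type) [Field k] [Finite k] [CharP k p] (N q : ℕ) [NeZero N]
    (S : Finset ℕ) (θ : heckeAlgebra N 2 (↑S : Set ℕ) →+* k) (ρbar : ResidualGaloisRep k)
    (Sram : Finset ℕ), m59m_Ctx p N q S θ ρbar Sram → m59m_LiftOf p θ q

/-- **[END-native]** twin of `twt_End_stmt`. -/
def m59m_End_stmt : Prop :=
  ∀ (p : ℕ) [Fact p.Prime] (k : Type) [Field k] [Finite k] [CharP k p] (N q : ℕ) [NeZero N]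
    (S : Finset ℕ) (θ : heckeAlgebra N 2 (↑S : Set ℕ) →+* k) (ρbar : ResidualGaloisRep k)
    (Sram : Finset ℕ), m59m_Ctx p N q S θ ρbar Sram →
  ∀ (𝒪 : Type) [CommRing 𝒪] [IsDomain 𝒪] [IsDiscreteValuationRing 𝒪]
    [IsAdicComplete (maximalIdeal 𝒪) 𝒪] [Finite (ResidueField 𝒪)] [CharZero 𝒪]
    [Algebra k (ResidueField 𝒪)], m59m_IsCoef p k 𝒪 →
    ∃ (T : Type) (_ : CommRing T) (_ : IsLocalRing T) (_ : IsNoetherianRing T)
      (_ : IsAdicComplete (maximalIdeal T) T) (_ : Algebra 𝒪 T) (_ : IsLocalHom (algebraMap 𝒪 T))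
      (_ : Module.Finite 𝒪 T) (_ : Module.Free 𝒪 T)
      (H : HeckeGaloisRepDatum N (↑S : Set ℕ) 𝒪 ((algebraMap k (ResidueField 𝒪)).comp θ) T)
      (𝔓 : Ideal T),
      𝔓.IsPrime ∧ (∀ x : 𝒪, algebraMap 𝒪 T x ∈ 𝔓 → x = 0) ∧
      ∀ A : ValuationSubring twt_Qb, A.LiesOverPrime q → ∀ σ ∈ A.inertiaSubgroupIn ℚ,
        ∀ v : H.ρ.V, H.ρ.ρ σ v - v ∈ 𝔓 • (⊤ : Submodule T H.ρ.V)

/-- **[PATCH-native]** twin of `twt_Patch_stmt`: the deliverable of the twins of [A]–[E] + [D]. -/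
def m59m_Patch_stmt : Prop :=
  ∀ (p : ℕ) [Fact p.Prime] (k : Type) [Field k] [Finite k] [CharP k p] (N q : ℕ) [NeZero N]
    (S : Finset ℕ) (θ : heckeAlgebra N 2 (↑S : Set ℕ) →+* k) (ρbar : ResidualGaloisRep k)
    (Sram : Finset ℕ) (hC : m59m_Ctx p N q S θ ρbar Sram),
  ∀ (𝒪 : Type) [CommRing 𝒪] [IsDomain 𝒪] [IsDiscreteValuationRing 𝒪]
    [IsAdicComplete (maximalIdeal 𝒪) 𝒪] [Finite (ResidueField 𝒪)] [CharZero 𝒪]
    [Algebra k (ResidueField 𝒪)], m59m_IsCoef p k 𝒪 →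
    ∃ (T : Type) (_ : CommRing T) (_ : IsLocalRing T) (_ : IsNoetherianRing T)
      (_ : IsAdicComplete (maximalIdeal T) T) (_ : Algebra 𝒪 T) (_ : IsLocalHom (algebraMap 𝒪 T))
      (_ : Module.Finite 𝒪 T) (_ : Module.Free 𝒪 T)
      (H : HeckeGaloisRepDatum N (↑S : Set ℕ) 𝒪 ((algebraMap k (ResidueField 𝒪)).comp θ) T)
      (𝔓 : Ideal T),
      𝔓.IsPrime ∧
      (∃ lam : 𝒪, maximalIdeal 𝒪 = Ideal.span {lam} ∧ algebraMap 𝒪 T lam ∉ 𝔓) ∧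
      ∀ v : H.ρ.V, H.ρ.ρ (twc_tg_gsigma ⟨q, hC.qp⟩) v - v ∈ 𝔓 • (⊤ : Submodule T H.ρ.V)

/-- **[PATCH-LV-native]** twin of `twt_PatchLv_stmt` = THE TARGET OF THE TWIN OF THE FINAL ASSEMBLY
OF [C] (`twc_pm_main4`). -/
def m59m_PatchLv_stmt : Prop :=
  ∀ (p : ℕ) [Fact p.Prime] (k : Type) [Field k] [Finite k] [CharP k p] (N q : ℕ) [NeZero N]
    (S : Finset ℕ) (θ : heckeAlgebra N 2 (↑S : Set ℕ) →+* k) (ρbar : ResidualGaloisRep k)
    (Sram : Finset ℕ) (hC : m59m_Ctx p N q S θ ρbar Sram),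
  ∀ (𝒪 : Type) [CommRing 𝒪] [IsDomain 𝒪] [IsDiscreteValuationRing 𝒪]
    [IsAdicComplete (maximalIdeal 𝒪) 𝒪] [Finite (ResidueField 𝒪)] [CharZero 𝒪]
    [Algebra k (ResidueField 𝒪)], m59m_IsCoef p k 𝒪 →
    ∃ (T : Type) (_ : CommRing T) (_ : IsLocalRing T) (_ : IsNoetherianRing T)
      (_ : IsAdicComplete (maximalIdeal T) T) (_ : Algebra 𝒪 T) (_ : IsLocalHom (algebraMap 𝒪 T))
      (_ : Module.Finite 𝒪 T) (_ : Module.Free 𝒪 T)
      (H : HeckeGaloisRepDatum N (↑S : Set ℕ) 𝒪 ((algebraMap k (ResidueField 𝒪)).comp θ) T)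
      (fr : FramedRep T) (lam : 𝒪) (Th : Type) (_ : Fintype Th) (a : Th → 𝒪) (n : Th → ℕ)
      (q₀ : Th) (g rr d : ℕ)
      (j : T →+* Matrix (Fin d) (Fin d) (MvPowerSeries (Fin rr) 𝒪 ⧸ twds_a 𝒪 rr)),
      H.ρ.IsEquiv fr.toGaloisRepAdic ∧ maximalIdeal 𝒪 = Ideal.span {lam} ∧
      (∀ t, n t % p = 1) ∧ (∀ t, a t ^ 2 - (n t : 𝒪) ∈ maximalIdeal 𝒪) ∧
      n q₀ ≠ 0 ∧ n q₀ ≠ 1 ∧ rr = 3 * Fintype.card Th + g ∧ 0 < d ∧
      ∀ m, Nonempty (twc_LvIn2 𝒪 lam rr d g (Th × Fin 2 × Fin 2 × Fin 2)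
        (twb_r8_Junip 𝒪 (Fin g ⊕ Fin g) p a n) (twb_r8_Jhash 𝒪 (Fin g) p a n)
        (twds_a 𝒪 rr) (twds_b 𝒪 rr (p ^ m)) (twds_b_le_a rr (p ^ m)) T j
        (fun i k => (q₀, 0, i, k)) (fun i k => (fr (twc_tg_gsigma ⟨q, hC.qp⟩) - 1) i k))

/-- **[E + A]-native** twin of `twe_M2LG4_stmt` (main: `twe_sbi_M2LG4`): ONE full base package and,
over it, for every Taylor–Wiles set `Q` and every set `Th` of hard primes, a unipotent system `L`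
and a big system `Bg` with `Bg.IsLG2`.  `5 ≤ p` becomes `p ∈ {3, 5}` + RIGIDITY of the level. -/
def m59m_M2LG_stmt : Prop :=
  ∀ (p : ℕ) [Fact p.Prime], p = 3 ∨ p = 5 →
  ∀ (𝒪 : Type) [CommRing 𝒪] [IsDomain 𝒪] [IsDiscreteValuationRing 𝒪]
    [IsAdicComplete (maximalIdeal 𝒪) 𝒪] [Finite (ResidueField 𝒪)] [CharZero 𝒪],
    (p : 𝒪) ∈ maximalIdeal 𝒪 →
  ∀ (N : ℕ) [NeZero N], Squarefree N → ¬ p ∣ N → m59ep_Rigid p N →
  ∀ (S : Finset ℕ), p ∈ S → (∀ ℓ : ℕ, ℓ.Prime → ℓ ∣ N → ℓ ∈ S) →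
  ∀ (θ : heckeAlgebra N 2 (↑S : Set ℕ) →+* ResidueField 𝒪)
    (ρbar : ResidualGaloisRep (ResidueField 𝒪)),
    twt_Compat θ ρbar → ρbar.IsAbsolutelyIrreducible →
    ∃ B : twe_Base 𝒪 N S θ,
      ∀ (Q : Finset ℕ) [NeZero (twe_Nbal N Q ∅)], (∀ t ∈ Q, t ∉ S) → twe_IsTWSet θ p Q →
        Q.Nonempty →
        ∀ (Th : Finset ℕ) [NeZero (twe_Nbal N Q Th)],
          (∀ ℓ ∈ Th, ℓ.Prime ∧ ℓ ∣ N ∧ ℓ ≠ 2 ∧ ℓ % p = 1) → Th.Nonempty →
          ∃ L : twe_Level B p Q, ∃ Bg : twe_Big L Th, Bg.IsLG2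

/-- **[HARMLESS]** at a harmless prime `ℓ` (`ℓ ≡ -1 (p)`, `tr ρ̄(Frob_ℓ) ≠ 0`) a representation over
a complete noetherian local ring with unipotent inertia at `ℓ` is UNRAMIFIED at `ℓ`
(`Ad(Frob_ℓ) - ℓ` is invertible on `End`, and `φ N φ⁻¹ = ℓ N` for `N = ρ(σ_ℓ) - 1`).  This is what
makes `twc_IsType p (insert p Sram) Th Q` hold for the Hecke–Galois data of the levels although the
harmless primes divide the level (twin of `twt_dl_isType`, whose `hcover` fails at them). -/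
def m59m_Harmless_stmt : Prop :=
  ∀ (p : ℕ) [Fact p.Prime], p ≠ 2 →
  ∀ (T : Type) [CommRing T] [IsLocalRing T] [IsNoetherianRing T]
    [IsAdicComplete (maximalIdeal T) T], (p : T) ∈ maximalIdeal T →
  ∀ (ρ : GaloisRepAdic T) (ℓ : ℕ), ℓ.Prime → ℓ ≠ p → ρ.DetIsCyclotomic p →
    ρ.residual.IsUnramifiedAt ℓ → m59m_IsHarmless p ρ.residual ℓ →
    ρ.IsUnipotentOnInertiaAt ℓ → ρ.IsUnramifiedAt ℓ

/-- **[PATCH] from [PATCH-LV]** (twin of `twt_patch_of_lvStmt`; `twt_patch_of_lv` is generic). -/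
theorem m59m_patch_of_lvStmt (hD : m59m_PatchLv_stmt) : m59m_Patch_stmt := by
  intro p hpF k _ _ _ N q _ S θ ρbar Sram hC 𝒪 _ _ _ _ _ _ _ hco
  obtain ⟨T, _, _, _, _, _, _, _, _, H, fr, lam, Th, _, a, n, q₀, g, rr, d, j, hfr, hlam, hn, han,
    hq0, hq1, hr, hd, hI⟩ := hD p k N q S θ ρbar Sram hC 𝒪 hco
  obtain ⟨hp𝒪, ⟨ζ, hζ⟩, -⟩ := hco
  obtain ⟨𝔓, h⟩ := twt_patch_of_lv hlam hpF.out hC.p_ne_two hp𝒪 hζ a n hn han q₀ hq0 hq1 g rr hr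
    hd H.ρ fr hfr (twc_tg_gsigma ⟨q, hC.qp⟩) (fun m => (hI m).some)
  exact ⟨T, inferInstance, inferInstance, inferInstance, inferInstance, inferInstance,
    inferInstance, inferInstance, inferInstance, H, 𝔓, h⟩

/-- **[END] from [PATCH]** (twin of `twt_end_of_patch`: the inertia bridge). -/
theorem m59m_end_of_patch (hP : m59m_Patch_stmt) : m59m_End_stmt := by
  intro p _ k _ _ _ N q _ S θ ρbar Sram hC 𝒪 _ _ _ _ _ _ _ hco
  obtain ⟨T, _, _, _, _, _, _, _, _, H, 𝔓, h𝔓, ⟨lam, hlam, hlam𝔓⟩, hσ⟩ :=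
    hP p k N q S θ ρbar Sram hC 𝒪 hco
  haveI := h𝔓
  refine ⟨T, inferInstance, inferInstance, inferInstance, inferInstance, inferInstance,
    inferInstance, inferInstance, inferInstance, H, 𝔓, h𝔓,
    twt_eop_inj 𝔓 lam hlam hlam𝔓, ?_⟩
  have hp : p.Prime := Fact.out
  have hN0 : N ≠ 0 := NeZero.ne N
  have hTh := m59m_Th_spec hp hN0 hC.pN Sram
  have hqTh : (⟨q, hC.qp⟩ : Nat.Primes) ∈ m59m_Th p N Sram :=
    (m59m_mem_Th hN0 Sram _).mpr ⟨hC.qN, hC.qram, hC.q1⟩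
  have hpT : (p : T) ∈ maximalIdeal T := by
    have := map_nonunit (algebraMap 𝒪 T) (p : 𝒪) hco.1
    rwa [map_natCast] at this
  -- the residual representation of `H` is unramified at `q`
  have hres : H.ρ.residual.IsUnramifiedAt q := by
    refine twt_re_datum_unram H (ρbar.baseChange (ResidueField 𝒪))
      (twt_ci_compat ρbar θ hC.compat) q ?_
    exact (twt_ci_unram_iff ρbar q).mpr hC.q_unram
  exact twib_out_hI (twib_td p (m59m_Th p N Sram) hTh)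
    (twib_td_inertiaGen p (m59m_Th p N Sram) hTh) hqTh H.ρ hpT hres 𝔓 hσ

/-- **[MACH] from [END]** (twin of `twt_machine2_of_end`: `twm0_coef` + (M7) `twt_out2`). -/
theorem m59m_machine_of_end (hE : m59m_End_stmt) : m59m_Machine_stmt := by
  intro p _ k _ _ _ N q _ S θ ρbar Sram hC
  obtain ⟨𝒪, _, _, _, _, _, _, _, hp𝒪, hζ, hquad⟩ := twm0_coef p k
  obtain ⟨T, _, _, _, _, _, _, _, _, H, 𝔓, h𝔓, hinj, hI⟩ :=
    hE p k N q S θ ρbar Sram hC 𝒪 ⟨hp𝒪, hζ, hquad⟩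
  obtain ⟨𝒪', _, _, _, _, _, _, _, χ, ρ, hp𝒪', hχθ, hχρ, hρabs, hρq⟩ :=
    twt_out2 hC.p_ne_two hp𝒪 H q 𝔓 h𝔓 hinj hI
  letI : Algebra k (ResidueField 𝒪') :=
    ((algebraMap (ResidueField 𝒪) (ResidueField 𝒪')).comp
      (algebraMap k (ResidueField 𝒪))).toAlgebra
  refine ⟨𝒪', inferInstance, inferInstance, inferInstance, inferInstance, inferInstance,
    inferInstance, inferInstance, χ, ρ, hp𝒪', ?_, hχρ, hρabs, hρq⟩
  intro t
  rw [hχθ t]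
  rfl

/-- **[MACH] from [PATCH-LV].** -/
theorem m59m_machine_of_lvStmt (hD : m59m_PatchLv_stmt) : m59m_Machine_stmt :=
  m59m_machine_of_end (m59m_end_of_patch (m59m_patch_of_lvStmt hD))

end Fermat.Agent.M59
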