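import Fermat.Agent.M59.Top.LowerQOf

/-!
M59 / box [C + S38g], cell [HARD], LEVEL 3 (helper14, box owner; ruling #48, table #5259).
Prefix `m59m_`.

`m59m_hard_of (Peu) : m59e_LowCore_stmt Peu → m59m_MachFlat_stmt → m59m_MachOrd_stmt Peu →
    m59m_ReadOffG_stmt → m59m_Hard_stmt`     (PROVED here)

(`m59m_Hard_stmt` : `M59/Top/LowerQOf.lean`; its hypothesis `2 ∈ S` is what allows the call of
`m59e_LowCore_stmt`, whose odd-level detour uses the prime `2`).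

The cut is the one of the landed S43 machine (`twt_core2_of`, `twt_machine2_of_lvStmt`), Frey-free
and in the vocabulary of the engine (`m59e_Occ`, `m59e_IsTate`):

* **[MACH-g] flat mode** `m59m_MachFlat_stmt` : `p ∤ N`, `q ∣ N` hard, every prime `ℓ ∣ N` at which
  `ρ̄` is unramified is hard, `Occ N`  ⟹  a characteristic-`0` eigensystem `χ` of level `N` lifting
  `ℓ ↦ a_ℓ(W)`, with a compatible Galois representation, residually absolutely irreducible, which is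
  UNRAMIFIED at `q`  (twin of `twt_Machine2_stmt`: `5 ≤ p` becomes `p ∈ {3,5}`, the pivot `2`
  becomes the set of primes of `N` at which `ρ̄` is ramified).
* **[MACH-g] ordinary mode** `m59m_MachOrd_stmt Peu` : the same at `p ∥ N` when nothing occurs at
  level `N / p` (every form is `p`-new) and `ρ̄` is NOT peu ramifiée at `p` (smooth one-parameter
  local factor at `p`; `W` is multiplicative at `p`).
* **[RO-g]** `m59m_ReadOffG_stmt` : a characteristic-`0` eigensystem of level `N` lifting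
  `ℓ ↦ a_ℓ(W)`, residually absolutely irreducible, non-Eisenstein, whose Galois representation is
  unramified at the odd prime `q ∥ N`, `q ≠ p`  ⟹  `Occ (N / q)`  (twin of `twf_readoff` /
  `twt_ReadOff2_stmt` in `Occ` form; `p ∥ N` allowed).

Wiring at `p ∣ N` (referee helper12, #5273): if `Occ (N / p)` run the flat mode at level `N / p` and
come back up by `m59e_occ_mono`; otherwise `m59e_LowCore_stmt Peu` gives `¬ Peu ρ̄ p` and the
ordinary mode applies.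
-/

set_option autoImplicit false

open Polynomial CuspForm IsLocalRing WeierstrassCurve Fermat.Agent.TW

namespace Fermat.Agent.M59

/-- the output of the machine: a characteristic-`0` eigensystem of level `N` lifting
`ℓ ↦ a_ℓ(W) mod p`, with a compatible Galois representation, residually absolutely irreducible and
unramified at `q`. -/
def m59m_Lift (p : ℕ) (W : WeierstrassCurve ℤ) (S : Finset ℕ) (N q : ℕ) : Prop :=
  ∃ (_ : NeZero N) (𝒪' : Type) (_ : CommRing 𝒪') (_ : IsDomain 𝒪')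
    (_ : IsDiscreteValuationRing 𝒪') (_ : IsAdicComplete (maximalIdeal 𝒪') 𝒪')
    (_ : Finite (ResidueField 𝒪')) (_ : CharZero 𝒪')
    (χ : heckeAlgebra N 2 (↑S : Set ℕ) →+* 𝒪') (ρ' : GaloisRepAdic 𝒪'),
    (p : 𝒪') ∈ maximalIdeal 𝒪' ∧
    (∀ (ℓ : ℕ) (hℓ : ℓ.Prime) (hℓN : ¬ ℓ ∣ N) (hℓS : ℓ ∉ (↑S : Set ℕ)),
      residue 𝒪' (χ (heckeAlgebra.T hℓ hℓN hℓS)) = ((W.apOfModel ℓ : ℤ) : ResidueField 𝒪')) ∧
    twt_CompatAdic χ ρ' ∧ ρ'.residual.IsAbsolutelyIrreducible ∧ ρ'.IsUnramifiedAt q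

/-- **[MACH-g], flat mode** (`p ∤ N`): twin of `twt_Machine2_stmt`. -/
def m59m_MachFlat_stmt : Prop :=
  ∀ (p : ℕ) [Fact p.Prime], p = 3 ∨ p = 5 → ∀ W : WeierstrassCurve ℤ, W.Δ ≠ 0 →
    W.IsSemistableModel →
  ∀ (𝒪 : Type) [CommRing 𝒪] [IsDomain 𝒪] [IsDiscreteValuationRing 𝒪]
    [IsAdicComplete (maximalIdeal 𝒪) 𝒪] [Finite (ResidueField 𝒪)] [CharZero 𝒪],
    (p : 𝒪) ∈ maximalIdeal 𝒪 →
  ∀ ρ : GaloisRepAdic 𝒪, m59e_IsTate p W ρ →
  ∀ (S : Finset ℕ) (N q : ℕ), m59e_IsBadSet W p S → 2 ∈ S → Squarefree N →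
    (∀ ℓ : ℕ, ℓ.Prime → ℓ ∣ N → ℓ ∈ S) → q.Prime → q ≠ p → q ∣ N →
    ¬ p ∣ N →
    ρ.residual.IsUnramifiedAt q → m59m_IsHard p ρ.residual q →
    (∀ ℓ : ℕ, ℓ.Prime → ℓ ≠ p → ℓ ∣ N → ρ.residual.IsUnramifiedAt ℓ →
      m59m_IsHard p ρ.residual ℓ) →
    m59e_Occ p W S N → m59m_Lift p W S N q

/-- **[MACH-g], ordinary mode** (`p ∥ N`, every form `p`-new, `ρ̄` not peu ramifiée at `p`). -/
def m59m_MachOrd_stmt (Peu : m59e_PeuPred) : Prop :=
  ∀ (p : ℕ) [Fact p.Prime], p = 3 ∨ p = 5 → ∀ W : WeierstrassCurve ℤ, W.Δ ≠ 0 →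
    W.IsSemistableModel →
  ∀ (𝒪 : Type) [CommRing 𝒪] [IsDomain 𝒪] [IsDiscreteValuationRing 𝒪]
    [IsAdicComplete (maximalIdeal 𝒪) 𝒪] [Finite (ResidueField 𝒪)] [CharZero 𝒪],
    (p : 𝒪) ∈ maximalIdeal 𝒪 →
  ∀ ρ : GaloisRepAdic 𝒪, m59e_IsTate p W ρ →
  ∀ (S : Finset ℕ) (N q : ℕ), m59e_IsBadSet W p S → 2 ∈ S → Squarefree N →
    (∀ ℓ : ℕ, ℓ.Prime → ℓ ∣ N → ℓ ∈ S) → q.Prime → q ≠ p → q ∣ N →
    p ∣ N → ¬ W.IsGoodPrimeFor p → ¬ m59e_Occ p W S (N / p) →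
    ¬ Peu (ResidueField 𝒪) ρ.residual p →
    ρ.residual.IsUnramifiedAt q → m59m_IsHard p ρ.residual q →
    (∀ ℓ : ℕ, ℓ.Prime → ℓ ≠ p → ℓ ∣ N → ρ.residual.IsUnramifiedAt ℓ →
      m59m_IsHard p ρ.residual ℓ) →
    m59e_Occ p W S N → m59m_Lift p W S N q

/-- **[RO-g]** read-off in `Occ` form (characteristic-`0` Mazur principle at the odd prime
`q ∥ N`, `q ≠ p`; `p ∥ N` allowed): twin of `twf_readoff`. -/
def m59m_ReadOffG_stmt : Prop :=
  ∀ (p : ℕ) [Fact p.Prime], p = 3 ∨ p = 5 → ∀ (W : WeierstrassCurve ℤ) (S : Finset ℕ)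
    (N q : ℕ), p ∈ S → Squarefree N → (∀ ℓ : ℕ, ℓ.Prime → ℓ ∣ N → ℓ ∈ S) →
    q.Prime → q ≠ p → q ≠ 2 → q ∣ N →
    -- non-Eisenstein
    (∃ ℓ : ℕ, ℓ.Prime ∧ ℓ ∉ S ∧ ¬ ℓ ∣ N ∧ ¬ (p : ℤ) ∣ W.apOfModel ℓ - (ℓ + 1)) →
    m59m_Lift p W S N q → m59e_Occ p W S (N / q)

/-- a hard prime is odd. -/
theorem m59m_hard_ne_two {k : Type} [Field k] {p : ℕ} (hp : p = 3 ∨ p = 5)
    {ρbar : ResidualGaloisRep k} {q : ℕ} (h : m59m_IsHard p ρbar q) : q ≠ 2 := by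
  rintro rfl
  rcases hp with rfl | rfl <;> simp [m59m_IsHard] at h

/-- the residue field of a local ring with `p ∈ 𝔪` has characteristic `p`. -/
theorem m59m_charP_residue (p : ℕ) [hp : Fact p.Prime] {𝒪 : Type} [CommRing 𝒪] [IsLocalRing 𝒪]
    (hp𝒪 : (p : 𝒪) ∈ maximalIdeal 𝒪) : CharP (ResidueField 𝒪) p := by
  have h0 : (p : ResidueField 𝒪) = 0 := by
    have : (residue 𝒪) (p : 𝒪) = 0 := (residue_eq_zero_iff _).mpr hp𝒪
    rwa [map_natCast] at this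
  obtain ⟨q, hq⟩ := CharP.exists (ResidueField 𝒪)
  have hdvd : q ∣ p := (CharP.cast_eq_zero_iff (ResidueField 𝒪) q p).mp h0
  rcases (Nat.dvd_prime hp.out).mp hdvd with h1 | h1
  · subst h1
    have h1 : (1 : ResidueField 𝒪) = 0 := by
      have := CharP.cast_eq_zero (ResidueField 𝒪) 1
      rwa [Nat.cast_one] at this
    exact absurd h1 one_ne_zero
  · subst h1
    exact hq

/-- the non-Eisenstein clause of [RO-g] from `m59e_IsTate`. -/
theorem m59m_nonEis_of_tate {p : ℕ} [Fact p.Prime] {W : WeierstrassCurve ℤ} {𝒪 : Type}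
    [CommRing 𝒪] [IsLocalRing 𝒪] (hp𝒪 : (p : 𝒪) ∈ maximalIdeal 𝒪)
    {ρ : GaloisRepAdic 𝒪} (hT : m59e_IsTate p W ρ) (S : Finset ℕ) (N : ℕ) (hN : N ≠ 0) :
    ∃ ℓ : ℕ, ℓ.Prime ∧ ℓ ∉ S ∧ ¬ ℓ ∣ N ∧ ¬ (p : ℤ) ∣ W.apOfModel ℓ - (ℓ + 1) := by
  have hchar : CharP (ResidueField 𝒪) p := m59m_charP_residue p hp𝒪
  obtain ⟨ℓ, hℓ, hℓS, hne⟩ := hT.nonEis (S ∪ N.primeFactors)
  refine ⟨ℓ, hℓ, fun h => hℓS (Finset.mem_union_left _ h), fun h => hℓS
    (Finset.mem_union_right _ (Nat.mem_primeFactors.mpr ⟨hℓ, h, hN⟩)), fun hdvd => hne ?_⟩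
  have h0 : ((W.apOfModel ℓ - (ℓ + 1) : ℤ) : ResidueField 𝒪) = 0 :=
    (CharP.intCast_eq_zero_iff (ResidueField 𝒪) p _).mpr hdvd
  have h1 : ((W.apOfModel ℓ : ℤ) : ResidueField 𝒪) - ((ℓ : ResidueField 𝒪) + 1) = 0 := by
    rw [← h0]
    push_cast
    ring
  exact sub_eq_zero.mp h1

/-- **[HARD] from [LOW-core], [MACH-g] (both modes) and [RO-g].** -/
theorem m59m_hard_of (Peu : m59e_PeuPred) (hLC : m59e_LowCore_stmt Peu)
    (hMf : m59m_MachFlat_stmt) (hMo : m59m_MachOrd_stmt Peu) (hR : m59m_ReadOffG_stmt) :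
    m59m_Hard_stmt := by
  intro p _ hp W hΔ hW 𝒪 _ _ _ _ _ _ hp𝒪 ρ hT S N q hS h2S hsq hNS hq hqp hqN hgood hunr hhard
    hall hocc
  have hq2 : q ≠ 2 := m59m_hard_ne_two hp hhard
  have hNpos : 0 < N := Nat.pos_of_ne_zero hsq.ne_zero
  by_cases hpN : p ∣ N
  · -- `W` is multiplicative at `p`
    have hbad : ¬ W.IsGoodPrimeFor p := fun hg => hgood hg hpN
    by_cases hoccp : m59e_Occ p W S (N / p)
    · -- flat mode at level `N / p`, then back up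
      have hpp : p.Prime := Fact.out
      have hdiv : N / p ∣ N := Nat.div_dvd_of_dvd hpN
      have hsq' : Squarefree (N / p) := hsq.squarefree_of_dvd hdiv
      have hNS' : ∀ r : ℕ, r.Prime → r ∣ N / p → r ∈ S := fun r hr hrd =>
        hNS r hr (dvd_trans hrd hdiv)
      have hqN' : q ∣ N / p := by
        have h1 : q ∣ p * (N / p) := by rwa [Nat.mul_div_cancel' hpN]
        rcases (Nat.Prime.dvd_mul hq).mp h1 with h | h
        · exact absurd ((Nat.prime_dvd_prime_iff_eq hq hpp).mp h) hqp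
        · exact h
      have hpN' : ¬ p ∣ N / p := by
        intro h
        obtain ⟨c, hc⟩ := h
        have h1 : N = p * (N / p) := (Nat.mul_div_cancel' hpN).symm
        have h2 : p * p ∣ N := ⟨c, by rw [h1, hc]; ring⟩
        exact hpp.one_lt.ne' (Nat.isUnit_iff.mp (hsq p h2))
      have hlift := hMf p hp W hΔ hW 𝒪 hp𝒪 ρ hT S (N / p) q hS h2S hsq' hNS' hq hqp hqN' hpN'
        hunr hhard (fun ℓ hℓ hℓp hℓd => hall ℓ hℓ hℓp (dvd_trans hℓd hdiv)) hoccp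
      have hocc2 : m59e_Occ p W S (N / p / q) :=
        hR p hp W S (N / p) q hS.1 hsq' hNS' hq hqp hq2 hqN'
          (m59m_nonEis_of_tate hp𝒪 hT S (N / p) hsq'.ne_zero) hlift
      have hdiv2 : N / p / q ∣ N / q := by
        rw [Nat.div_div_eq_div_mul, mul_comm, ← Nat.div_div_eq_div_mul]
        exact Nat.div_dvd_of_dvd (by
          have h1 : p ∣ q * (N / q) := by rwa [Nat.mul_div_cancel' hqN]
          rcases (Nat.Prime.dvd_mul hpp).mp h1 with h | h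
          · exact absurd ((Nat.prime_dvd_prime_iff_eq hpp hq).mp h).symm hqp
          · exact h)
      have hNq : N / q ∣ N := Nat.div_dvd_of_dvd hqN
      exact m59e_occ_mono p W S hdiv2 (Nat.div_pos (Nat.le_of_dvd hNpos hqN) hq.pos)
        (fun r hr hrd => hNS r hr (dvd_trans hrd hNq)) hocc2
    · -- every form is `p`-new: [LOW-core] in contrapositive, then the ordinary mode
      have hpeu : ¬ Peu (ResidueField 𝒪) ρ.residual p := fun hP =>
        hoccp (hLC p hp W hΔ hW 𝒪 hp𝒪 ρ hT S N hS h2S hsq hNS hpN hP hocc)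
      have hlift := hMo p hp W hΔ hW 𝒪 hp𝒪 ρ hT S N q hS h2S hsq hNS hq hqp hqN hpN hbad hoccp
        hpeu hunr hhard hall hocc
      exact hR p hp W S N q hS.1 hsq hNS hq hqp hq2 hqN
        (m59m_nonEis_of_tate hp𝒪 hT S N hsq.ne_zero) hlift
  · have hlift := hMf p hp W hΔ hW 𝒪 hp𝒪 ρ hT S N q hS h2S hsq hNS hq hqp hqN hpN hunr hhard
      hall hocc
    exact hR p hp W S N q hS.1 hsq hNS hq hqp hq2 hqN
      (m59m_nonEis_of_tate hp𝒪 hT S N hsq.ne_zero) hlift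

end Fermat.Agent.M59
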