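import Fermat.Agent.M59.S38g.MachEntry
import Fermat.Agent.M59.Top.Rigidifier

/-!
M59 / box [C + S38g]: the cell [RIGIDIFIER] `m59m_Rigidifier_stmt` of `M59/S38g/MachEntry.lean` is
CLOSED by the chief's `m59e_rigidifier` (`M59/Top/Rigidifier.lean`).  (helper14.)  Prefix `m59m_`.

`m59m_hard_of3` : `m59m_hard_of2` with that hypothesis discharged.
-/

set_option autoImplicit false

open Polynomial CuspForm IsLocalRing WeierstrassCurve Fermat.Agent.TW

namespace Fermat.Agent.M59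

/-- **[RIGIDIFIER]** is a theorem. -/
theorem m59m_rigidifier : m59m_Rigidifier_stmt := by
  intro W hΔ _ 𝒪 _ _ _ _ _ _ hp𝒪 ρ hT S
  have : Fact (Nat.Prime 3) := ⟨by norm_num⟩
  have : CharP (ResidueField 𝒪) 3 := m59m_charP_residue 3 hp𝒪
  obtain ⟨r, hr, hrS, -, -, hr3, ha⟩ := m59e_rigidifier W hΔ hp𝒪 ρ hT S
  refine ⟨r, hr, hrS, hr3, fun hd => ha ?_⟩
  exact (CharP.intCast_eq_zero_iff (ResidueField 𝒪) 3 _).mpr hd

/-- **[HARD], third wiring**: the rigidifier cell discharged. -/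
theorem m59m_hard_of3 (Peu : m59e_PeuPred) (hLC : m59e_LowCore_stmt Peu)
    (hMf : m59m_MachFlatR_stmt) (hMo : m59m_MachOrd_stmt Peu) (hR : m59m_ReadOffG_stmt)
    (hMz : m59m_Mazur_stmt) (hE : m59e_EntryExt_stmt) : m59m_Hard_stmt :=
  m59m_hard_of2 Peu hLC hMf hMo hR hMz hE m59m_rigidifier

end Fermat.Agent.M59
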