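import Fermat.Agent.M59.S38g.MachSeams
import Fermat.Agent.M59.Top.CoreSeams
import Fermat.Agent.S35.SMO.StrongLin
import Fermat.Agent.JT3.ES.FrobExists

/-!
M59 / box [C + S38g], cell [HARD], flat mode: FROM THE ENGINE VOCABULARY TO THE NATIVE ONE
(helper14, box owner).  Prefix `m59m_`.

* `m59m_MachFlatR_stmt` : `m59m_MachFlat_stmt` (`M59/S38g/Seams.lean`) at a RIGID level, harmless
  primes allowed in the level.
* `m59m_RamN_stmt` **[RAM-N]** : `ρ̄` occurs at level `N` ⟹ `ρ̄` is unramified outside `N p`.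
* `m59m_machFlatR_of : m59e_EntryExt_stmt → m59m_RamN_stmt → m59m_Machine_stmt →
    m59m_MachFlatR_stmt`   (PROVED: the context `m59m_Ctx` is built here, `Sram` := the primes of `N`
  at which `ρ̄` is ramified).
* `m59m_Rigidifier_stmt` **[RIGIDIFIER]** : for `p = 3` and every finite `S` a prime `r ∉ S`,
  `r ≡ 2 (3)`, `3 ∤ a_r(W)` (Chebotarev + `IsTate.tw`).
* `m59m_hard_of2 (Peu) : m59e_LowCore_stmt Peu → m59m_MachFlatR_stmt → m59m_MachOrd_stmt Peu →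
    m59m_ReadOffG_stmt → m59m_Mazur_stmt → m59e_EntryExt_stmt → m59m_Rigidifier_stmt →
    m59m_Hard_stmt`   (PROVED).  At a non-rigid level (`p = 3`, no prime `≡ 2 (3)` in `N`) the trip is
  `(N, S) → (N r, S ∪ {r})` [`twe_rg_theta_lift`] `→ (N r / q, S ∪ {r})` [machine + read-off]
  `→ (N / q, S ∪ {r})` [MAZUR at the non-hard `r`] `→ (N / q, S)` [ENTRY-ext].
-/

set_option autoImplicit false
set_option linter.style.haveILetI false
set_option linter.unusedSectionVars false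

open Polynomial CuspForm IsLocalRing WeierstrassCurve Fermat.Agent.TW Fermat.Agent.JT3

namespace Fermat.Agent.M59

/-- existence of a Frobenius element at every prime. -/
theorem m59m_exists_frob {ℓ : ℕ} (hℓ : ℓ.Prime) :
    ∃ (A : ValuationSubring twt_Qb) (σ : twt_G), A.LiesOverPrime ℓ ∧ A.IsFrobeniusAt σ ℓ := by
  obtain ⟨A, hA⟩ := Fermat.Agent.S35.smos_exists_place ℓ hℓ
  obtain ⟨σ, hσ⟩ := fex_exists_isFrobeniusAt hℓ A hA
  exact ⟨A, σ, hA, hσ⟩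

/-- the coefficient of `X` in `X² - a X + b`. -/
theorem m59m_coeff_one {R : Type} [CommRing R] (a b : R) :
    (X ^ 2 - C a * X + C b : R[X]).coeff 1 = -a := by
  simp [coeff_X_pow, coeff_C]

/-- an eigensystem compatible with `ρ̄_W` has the eigenvalues `a_ℓ(W)` away from a bad set. -/
theorem m59m_eig_of_compat {p : ℕ} {W : WeierstrassCurve ℤ} {𝒪 : Type} [CommRing 𝒪]
    [IsLocalRing 𝒪] {ρ : GaloisRepAdic 𝒪} (hT : m59e_IsTate p W ρ) {S : Finset ℕ}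
    (hS : m59e_IsBadSet W p S) {N : ℕ} [NeZero N]
    (θ : heckeAlgebra N 2 (↑S : Set ℕ) →+* ResidueField 𝒪) (hc : twt_Compat θ ρ.residual) :
    m59e_IsWEig W θ := by
  intro ℓ hℓ hℓN hℓS
  have hℓS' : ℓ ∉ S := fun h => hℓS (Finset.mem_coe.mpr h)
  have hℓp : ℓ ≠ p := fun h => hℓS' (h ▸ hS.1)
  have hgood : W.IsGoodPrimeFor ℓ := by
    by_contra hb
    exact hℓS' (hS.2 ℓ hℓ hb)
  obtain ⟨A, σ, hA, hσ⟩ := m59m_exists_frob hℓ
  have h1 := hc ℓ hℓ hℓN hℓS A hA σ hσ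
  have h2 := hT.frobRes ℓ hℓ hℓp hgood A hA σ hσ
  rw [h1] at h2
  have h3 := congrArg (fun f : (ResidueField 𝒪)[X] => f.coeff 1) h2
  simp only [m59m_coeff_one] at h3
  exact neg_injective h3

/-- the engine form of the output of the machine. -/
theorem m59m_lift_of_liftOf {p : ℕ} {W : WeierstrassCurve ℤ} {k : Type} [Field k] {N : ℕ}
    [hN : NeZero N] {S : Finset ℕ} {θ : heckeAlgebra N 2 (↑S : Set ℕ) →+* k}
    (hθ : m59e_IsWEig W θ) {q : ℕ} (h : m59m_LiftOf p θ q) : m59m_Lift p W S N q := by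
  obtain ⟨𝒪', _, _, _, _, _, _, _, χ, ρ', hp, hχθ, hc, habs, hunr⟩ := h
  refine ⟨hN, 𝒪', inferInstance, inferInstance, inferInstance, inferInstance, inferInstance,
    inferInstance, χ, ρ', hp, ?_, hc, habs, hunr⟩
  intro ℓ hℓ hℓN hℓS
  rw [hχθ, hθ ℓ hℓ hℓN hℓS, map_intCast]

/-- `Occ` is monotone in the level AND in the bad set. -/
theorem m59m_occ_mono2 (p : ℕ) (W : WeierstrassCurve ℤ) {S S' : Finset ℕ} (hSS' : S ⊆ S')
    {M M' : ℕ} (h : M ∣ M') (hM' : 0 < M') (hS' : ∀ ℓ : ℕ, ℓ.Prime → ℓ ∣ M' → ℓ ∈ S')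
    (hocc : m59e_Occ p W S M) : m59e_Occ p W S' M' := by
  obtain ⟨_, k, _, _, θ, hθ⟩ := hocc
  have hne : NeZero M' := ⟨hM'.ne'⟩
  obtain ⟨θ', hθ'⟩ := twe_rg_theta_lift h S S' hSS' hS' θ
  refine ⟨hne, k, inferInstance, inferInstance, θ', ?_⟩
  intro ℓ hℓ hℓM' hℓS'
  have hℓM : ¬ ℓ ∣ M := fun hd => hℓM' (dvd_trans hd h)
  have hℓS : ℓ ∉ (↑S : Set ℕ) := fun hm =>
    hℓS' (Finset.mem_coe.mpr (hSS' (Finset.mem_coe.mp hm)))
  rw [hθ' ℓ hℓ hℓM' hℓS' hℓM hℓS]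
  exact hθ ℓ hℓ hℓM hℓS

/-- the residual representation of an unramified representation is unramified. -/
theorem m59m_residual_unram {𝒪 : Type} [CommRing 𝒪] [IsLocalRing 𝒪] {ρ : GaloisRepAdic 𝒪}
    {ℓ : ℕ} (h : ρ.IsUnramifiedAt ℓ) : ρ.residual.IsUnramifiedAt ℓ := by
  intro A hA σ hσ
  change (ρ.ρ σ).baseChange (ResidueField 𝒪) = 1
  rw [h A hA σ hσ, LinearMap.baseChange_one]

/-- **[MACH-g], flat mode, at a RIGID level**, harmless primes allowed. -/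
def m59m_MachFlatR_stmt : Prop :=
  ∀ (p : ℕ) [Fact p.Prime], p = 3 ∨ p = 5 → ∀ W : WeierstrassCurve ℤ, W.Δ ≠ 0 →
    W.IsSemistableModel →
  ∀ (𝒪 : Type) [CommRing 𝒪] [IsDomain 𝒪] [IsDiscreteValuationRing 𝒪]
    [IsAdicComplete (maximalIdeal 𝒪) 𝒪] [Finite (ResidueField 𝒪)] [CharZero 𝒪],
    (p : 𝒪) ∈ maximalIdeal 𝒪 →
  ∀ ρ : GaloisRepAdic 𝒪, m59e_IsTate p W ρ →
  ∀ (S : Finset ℕ) (N q : ℕ), m59e_IsBadSet W p S → 2 ∈ S → Squarefree N →
    (∀ ℓ : ℕ, ℓ.Prime → ℓ ∣ N → ℓ ∈ S) → q.Prime → q ≠ p → q ∣ N →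
    ¬ p ∣ N → m59ep_Rigid p N →
    ρ.residual.IsUnramifiedAt q → m59m_IsHard p ρ.residual q →
    (∀ ℓ : ℕ, ℓ.Prime → ℓ ≠ p → ℓ ∣ N → ρ.residual.IsUnramifiedAt ℓ →
      m59m_IsHard p ρ.residual ℓ ∨ m59m_IsHarmless p ρ.residual ℓ) →
    m59e_Occ p W S N → m59m_Lift p W S N q

/-- **[RAM-N]** a residual representation which occurs at level `N` is unramified outside `N p`
(the Hecke–Galois datum of level `N` is, and its residual representation is `ρ̄`: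
`m59epw_dt_main` + `twt_dl_unram` + `twt_re_datum`). -/
def m59m_RamN_stmt : Prop :=
  ∀ (p : ℕ) [Fact p.Prime], p ≠ 2 →
  ∀ (𝒪 : Type) [CommRing 𝒪] [IsDomain 𝒪] [IsDiscreteValuationRing 𝒪]
    [IsAdicComplete (maximalIdeal 𝒪) 𝒪] [Finite (ResidueField 𝒪)] [CharZero 𝒪],
    (p : 𝒪) ∈ maximalIdeal 𝒪 →
  ∀ (N : ℕ) [NeZero N] (S : Finset ℕ), p ∈ S → (∀ ℓ : ℕ, ℓ.Prime → ℓ ∣ N → ℓ ∈ S) →
  ∀ (θ : heckeAlgebra N 2 (↑S : Set ℕ) →+* ResidueField 𝒪)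
    (ρbar : ResidualGaloisRep (ResidueField 𝒪)),
    twt_Compat θ ρbar → ρbar.IsAbsolutelyIrreducible →
    ∀ ℓ : ℕ, ℓ.Prime → ℓ ≠ p → ¬ ℓ ∣ N → ρbar.IsUnramifiedAt ℓ

/-- **[MACH-g] flat mode at a rigid level from [ENTRY-ext], [RAM-N] and the native machine.** -/
theorem m59m_machFlatR_of (hE : m59e_EntryExt_stmt) (hRN : m59m_RamN_stmt)
    (hM : m59m_Machine_stmt) : m59m_MachFlatR_stmt := by
  classical
  intro p _ hp W hΔ hW 𝒪 _ _ _ _ _ _ hp𝒪 ρ hT S N q hS h2S hsq hNS hq hqp hqN hpN hrig hunr hhard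
    hall hocc
  haveI : NeZero N := ⟨hsq.ne_zero⟩
  have hp2 : p ≠ 2 := by rcases hp with rfl | rfl <;> norm_num
  obtain ⟨θ₀, hc, hne⟩ := hE p hp W hΔ hW 𝒪 hp𝒪 ρ hT S S N hS hsq (Finset.Subset.refl S) hS.1
    hNS hocc
  haveI : CharP (ResidueField 𝒪) p := m59m_charP_residue p hp𝒪
  let Sram : Finset ℕ := N.primeFactors.filter fun ℓ => ¬ ρ.residual.IsUnramifiedAt ℓ
  have hmem : ∀ ℓ : ℕ, ℓ ∈ Sram ↔ (ℓ.Prime ∧ ℓ ∣ N) ∧ ¬ ρ.residual.IsUnramifiedAt ℓ := by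
    intro ℓ
    rw [Finset.mem_filter, Nat.mem_primeFactors]
    constructor
    · rintro ⟨⟨h1, h2, -⟩, h3⟩
      exact ⟨⟨h1, h2⟩, h3⟩
    · rintro ⟨⟨h1, h2⟩, h3⟩
      exact ⟨⟨h1, h2, hsq.ne_zero⟩, h3⟩
  have hunrOf : ∀ ℓ : ℕ, ℓ.Prime → ℓ ∣ N → ℓ ∉ Sram → ρ.residual.IsUnramifiedAt ℓ := by
    intro ℓ hℓ hℓN hℓr
    by_contra hr
    exact hℓr ((hmem ℓ).mpr ⟨⟨hℓ, hℓN⟩, hr⟩)
  have hC : m59m_Ctx p N q S θ₀ ρ.residual Sram :=
    { hp := hp
      sq := hsq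
      pN := hpN
      rigid := hrig
      pS := hS.1
      NS := hNS
      compat := hc
      nonEis := hne
      abs := hT.irr
      tw := hT.tw
      ram := fun ℓ hℓ hℓp => ⟨fun hm => ((hmem ℓ).mp hm).2, fun hr => (hmem ℓ).mpr ⟨⟨hℓ, by
        by_contra hℓN
        exact hr (hRN p hp2 𝒪 hp𝒪 N S hS.1 hNS θ₀ ρ.residual hc hT.irr ℓ hℓ hℓp hℓN)⟩, hr⟩⟩
      ramN := fun ℓ hm => ((hmem ℓ).mp hm).1
      hard := fun ℓ hℓ hℓN hℓr h1 => by
        have hℓp : ℓ ≠ p := fun h => hpN (h ▸ hℓN)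
        rcases hall ℓ hℓ hℓp hℓN (hunrOf ℓ hℓ hℓN hℓr) with h | h
        · exact h.2
        · exfalso
          have h2 := h.1
          rcases hp with rfl | rfl <;> omega
      harmless := fun ℓ hℓ hℓN hℓr h1 => by
        have hℓp : ℓ ≠ p := fun h => hpN (h ▸ hℓN)
        rcases hall ℓ hℓ hℓp hℓN (hunrOf ℓ hℓ hℓN hℓr) with h | h
        · exact absurd h.1 h1
        · exact h
      qp := hq
      qN := hqN
      qram := fun hm => ((hmem q).mp hm).2 hunr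
      q1 := hhard.1 }
  exact m59m_lift_of_liftOf (m59m_eig_of_compat hT hS θ₀ hc)
    (hM p (ResidueField 𝒪) N q S θ₀ ρ.residual Sram hC)

/-- **[RIGIDIFIER]** for `p = 3`: outside every finite set there is a prime `r ≡ 2 mod 3` with
`3 ∤ a_r(W)`  (Chebotarev for `ρ̄`; an element of determinant `-1` and non-zero trace exists because
the image of `ρ̄` contains a Sylow `2`-subgroup of `GL₂(𝔽₃)`, by `IsTate.tw`). -/
def m59m_Rigidifier_stmt : Prop :=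
  ∀ W : WeierstrassCurve ℤ, W.Δ ≠ 0 → W.IsSemistableModel →
  ∀ (𝒪 : Type) [CommRing 𝒪] [IsDomain 𝒪] [IsDiscreteValuationRing 𝒪]
    [IsAdicComplete (maximalIdeal 𝒪) 𝒪] [Finite (ResidueField 𝒪)] [CharZero 𝒪],
    ((3 : ℕ) : 𝒪) ∈ maximalIdeal 𝒪 →
  ∀ ρ : GaloisRepAdic 𝒪, m59e_IsTate 3 W ρ →
  ∀ S : Finset ℕ, ∃ r : ℕ, r.Prime ∧ r ∉ S ∧ r % 3 = 2 ∧ ¬ (3 : ℤ) ∣ W.apOfModel r

/-- the rigidifier is harmless. -/
theorem m59m_harmless_of_rigidifier {W : WeierstrassCurve ℤ} {𝒪 : Type} [CommRing 𝒪]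
    [IsLocalRing 𝒪] (hp𝒪 : ((3 : ℕ) : 𝒪) ∈ maximalIdeal 𝒪) {ρ : GaloisRepAdic 𝒪}
    (hT : m59e_IsTate 3 W ρ) {r : ℕ} (hr : r.Prime) (hgood : W.IsGoodPrimeFor r)
    (hr3 : r % 3 = 2) (ha : ¬ (3 : ℤ) ∣ W.apOfModel r) : m59m_IsHarmless 3 ρ.residual r := by
  haveI : Fact (Nat.Prime 3) := ⟨by norm_num⟩
  haveI : CharP (ResidueField 𝒪) 3 := m59m_charP_residue 3 hp𝒪
  have hr3' : r ≠ 3 := by rintro rfl; omega
  refine ⟨by omega, fun A hA σ hσ => ?_⟩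
  rw [hT.frobRes r hr hr3' hgood A hA σ hσ, m59m_coeff_one, neg_ne_zero]
  intro h0
  exact ha ((CharP.intCast_eq_zero_iff (ResidueField 𝒪) 3 _).mp h0)

/-- the common Prop of the flat-mode lowering (`p ∤ N`) at a hard prime. -/
def m59m_FlatLower_stmt : Prop :=
  ∀ (p : ℕ) [Fact p.Prime], p = 3 ∨ p = 5 → ∀ W : WeierstrassCurve ℤ, W.Δ ≠ 0 →
    W.IsSemistableModel →
  ∀ (𝒪 : Type) [CommRing 𝒪] [IsDomain 𝒪] [IsDiscreteValuationRing 𝒪]
    [IsAdicComplete (maximalIdeal 𝒪) 𝒪] [Finite (ResidueField 𝒪)] [CharZero 𝒪],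
    (p : 𝒪) ∈ maximalIdeal 𝒪 →
  ∀ ρ : GaloisRepAdic 𝒪, m59e_IsTate p W ρ →
  ∀ (S : Finset ℕ) (N q : ℕ), m59e_IsBadSet W p S → 2 ∈ S → Squarefree N →
    (∀ ℓ : ℕ, ℓ.Prime → ℓ ∣ N → ℓ ∈ S) → q.Prime → q ≠ p → q ∣ N →
    ¬ p ∣ N →
    ρ.residual.IsUnramifiedAt q → m59m_IsHard p ρ.residual q →
    (∀ ℓ : ℕ, ℓ.Prime → ℓ ≠ p → ℓ ∣ N → ρ.residual.IsUnramifiedAt ℓ →
      m59m_IsHard p ρ.residual ℓ) →
    m59e_Occ p W S N → m59e_Occ p W S (N / q)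

/-- **flat-mode lowering at a hard prime**, rigid or not: at a non-rigid level (`p = 3`) the trip
`(N, S) → (N r, S ∪ {r}) → (N r / q, S ∪ {r}) → (N / q, S ∪ {r}) → (N / q, S)`. -/
theorem m59m_flatLower_of (hMf : m59m_MachFlatR_stmt) (hR : m59m_ReadOffG_stmt)
    (hMz : m59m_Mazur_stmt) (hE : m59e_EntryExt_stmt) (hRg : m59m_Rigidifier_stmt) :
    m59m_FlatLower_stmt := by
  intro p _ hp W hΔ hW 𝒪 _ _ _ _ _ _ hp𝒪 ρ hT S N q hS h2S hsq hNS hq hqp hqN hpN hunr hhard hall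
    hocc
  have hq2 : q ≠ 2 := m59m_hard_ne_two hp hhard
  by_cases hrig : m59ep_Rigid p N
  · have hlift := hMf p hp W hΔ hW 𝒪 hp𝒪 ρ hT S N q hS h2S hsq hNS hq hqp hqN hpN hrig hunr hhard
      (fun ℓ hℓ hℓp hℓN hu => Or.inl (hall ℓ hℓ hℓp hℓN hu)) hocc
    exact hR p hp W S N q hS.1 hsq hNS hq hqp hq2 hqN
      (m59m_nonEis_of_tate hp𝒪 hT S N hsq.ne_zero) hlift
  · -- `p = 3` and the level has no prime `≡ 2 mod 3`
    have hp3 : p = 3 := by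
      by_contra h
      exact hrig (fun h3 => absurd h3 h)
    subst hp3
    obtain ⟨r, hr, hrS, hr3, har⟩ := hRg W hΔ hW 𝒪 hp𝒪 ρ hT S
    have h3prime : Nat.Prime 3 := by norm_num
    have hrN : ¬ r ∣ N := fun h => hrS (hNS r hr h)
    have hr3' : r ≠ 3 := by rintro rfl; omega
    have hrgood : W.IsGoodPrimeFor r := by
      by_contra hb
      exact hrS (hS.2 r hr hb)
    have hSS' : S ⊆ insert r S := Finset.subset_insert r S
    have hS' : m59e_IsBadSet W 3 (insert r S) :=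
      ⟨hSS' hS.1, fun ℓ hℓ hb => hSS' (hS.2 ℓ hℓ hb)⟩
    have h2S' : 2 ∈ insert r S := hSS' h2S
    have hNpos : 0 < N := Nat.pos_of_ne_zero hsq.ne_zero
    have hcop : Nat.Coprime N r := ((Nat.Prime.coprime_iff_not_dvd hr).mpr hrN).symm
    have hsq' : Squarefree (N * r) :=
      (Nat.squarefree_mul_iff).mpr ⟨hcop, hsq, hr.squarefree⟩
    have hNS' : ∀ ℓ : ℕ, ℓ.Prime → ℓ ∣ N * r → ℓ ∈ insert r S := by
      intro ℓ hℓ hd
      rcases (Nat.Prime.dvd_mul hℓ).mp hd with h | h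
      · exact hSS' (hNS ℓ hℓ h)
      · rw [(Nat.prime_dvd_prime_iff_eq hℓ hr).mp h]
        exact Finset.mem_insert_self r S
    have hocc' : m59e_Occ 3 W (insert r S) (N * r) :=
      m59m_occ_mono2 3 W hSS' (Dvd.intro r rfl) (Nat.mul_pos hNpos hr.pos) hNS' hocc
    have hqN' : q ∣ N * r := Dvd.dvd.mul_right hqN r
    have h3N' : ¬ 3 ∣ N * r := by
      intro h
      rcases (Nat.Prime.dvd_mul h3prime).mp h with h | h
      · exact hpN h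
      · exact hr3' ((Nat.prime_dvd_prime_iff_eq h3prime hr).mp h).symm
    have hrig' : m59ep_Rigid 3 (N * r) := fun _ => ⟨r, hr, Dvd.intro_left N rfl, hr3⟩
    have hall' : ∀ ℓ : ℕ, ℓ.Prime → ℓ ≠ 3 → ℓ ∣ N * r → ρ.residual.IsUnramifiedAt ℓ →
        m59m_IsHard 3 ρ.residual ℓ ∨ m59m_IsHarmless 3 ρ.residual ℓ := by
      intro ℓ hℓ hℓp hd hu
      rcases (Nat.Prime.dvd_mul hℓ).mp hd with h | h
      · exact Or.inl (hall ℓ hℓ hℓp h hu)
      · have hℓr : ℓ = r := (Nat.prime_dvd_prime_iff_eq hℓ hr).mp h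
        subst hℓr
        exact Or.inr (m59m_harmless_of_rigidifier hp𝒪 hT hℓ hrgood hr3 har)
    have hlift := hMf 3 hp W hΔ hW 𝒪 hp𝒪 ρ hT (insert r S) (N * r) q hS' h2S' hsq' hNS' hq hqp
      hqN' h3N' hrig' hunr hhard hall' hocc'
    have hocc2 : m59e_Occ 3 W (insert r S) (N * r / q) :=
      hR 3 hp W (insert r S) (N * r) q hS'.1 hsq' hNS' hq hqp hq2 hqN'
        (m59m_nonEis_of_tate hp𝒪 hT (insert r S) (N * r) hsq'.ne_zero) hlift
    have hdiv : N * r / q = N / q * r := by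
      obtain ⟨c, hc⟩ := hqN
      rw [hc, mul_assoc, Nat.mul_div_cancel_left _ hq.pos, Nat.mul_div_cancel_left _ hq.pos]
    rw [hdiv] at hocc2
    -- [MAZUR] at the non-hard `r`
    have hNq : N / q ∣ N := Nat.div_dvd_of_dvd hqN
    have hdvd2 : N / q * r ∣ N * r := Nat.mul_dvd_mul_right hNq r
    have hsq2 : Squarefree (N / q * r) := hsq'.squarefree_of_dvd hdvd2
    have hNS2 : ∀ ℓ : ℕ, ℓ.Prime → ℓ ∣ N / q * r → ℓ ∈ insert r S := fun ℓ hℓ hd =>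
      hNS' ℓ hℓ (dvd_trans hd hdvd2)
    have hnothard : ¬ m59m_IsHard 3 ρ.residual r := by
      intro h
      have := h.1
      omega
    have hocc3 : m59e_Occ 3 W (insert r S) (N / q * r / r) :=
      hMz 3 hp W hΔ hW 𝒪 hp𝒪 ρ hT (insert r S) (N / q * r) r hS' h2S' hsq2 hNS2 hr hr3'
        (Dvd.intro_left _ rfl) (fun _ h => h3N' (dvd_trans h hdvd2))
        (m59m_residual_unram (hT.unram r hr hr3' hrgood)) hnothard hocc2
    rw [Nat.mul_div_cancel _ hr.pos] at hocc3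
    -- back to `S`: [ENTRY-ext]
    have hNqpos : 0 < N / q := Nat.div_pos (Nat.le_of_dvd hNpos hqN) hq.pos
    haveI : NeZero (N / q) := ⟨hNqpos.ne'⟩
    have hNSq : ∀ ℓ : ℕ, ℓ.Prime → ℓ ∣ N / q → ℓ ∈ S := fun ℓ hℓ hd =>
      hNS ℓ hℓ (dvd_trans hd hNq)
    obtain ⟨θ₀, hc, -⟩ := hE 3 hp W hΔ hW 𝒪 hp𝒪 ρ hT (insert r S) S (N / q) hS'
      (hsq.squarefree_of_dvd hNq) hSS' hS.1 hNSq hocc3
    haveI : CharP (ResidueField 𝒪) 3 := m59m_charP_residue 3 hp𝒪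
    exact ⟨inferInstance, ResidueField 𝒪, inferInstance, inferInstance, θ₀,
      m59m_eig_of_compat hT hS θ₀ hc⟩

/-- **[HARD] from [LOW-core], the flat-mode lowering, [MACH-g] ordinary mode and [RO-g]**
(`m59m_hard_of` with the flat mode in `Occ` form). -/
theorem m59m_hard_of_flatLower (Peu : m59e_PeuPred) (hLC : m59e_LowCore_stmt Peu)
    (hFL : m59m_FlatLower_stmt) (hMo : m59m_MachOrd_stmt Peu) (hR : m59m_ReadOffG_stmt) :
    m59m_Hard_stmt := by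
  intro p _ hp W hΔ hW 𝒪 _ _ _ _ _ _ hp𝒪 ρ hT S N q hS h2S hsq hNS hq hqp hqN hgood hunr hhard
    hall hocc
  have hq2 : q ≠ 2 := m59m_hard_ne_two hp hhard
  have hNpos : 0 < N := Nat.pos_of_ne_zero hsq.ne_zero
  by_cases hpN : p ∣ N
  · have hbad : ¬ W.IsGoodPrimeFor p := fun hg => hgood hg hpN
    by_cases hoccp : m59e_Occ p W S (N / p)
    · -- flat mode at level `N / p`, then back up
      have hpp : p.Prime := Fact.out
      have hdiv : N / p ∣ N := Nat.div_dvd_of_dvd hpN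
      have hsq' : Squarefree (N / p) := hsq.squarefree_of_dvd hdiv
      have hNS' : ∀ r : ℕ, r.Prime → r ∣ N / p → r ∈ S := fun r hr hrd =>
        hNS r hr (dvd_trans hrd hdiv)
      have hqN' : q ∣ N / p := by
        have h1 : q ∣ p * (N / p) := by rwa [Nat.mul_div_cancel' hpN]
        rcases (Nat.Prime.dvd_mul hq).mp h1 with h | h
        · exact absurd ((Nat.prime_dvd_prime_iff_eq hq hpp).mp h) hqp
        · exact h
      have hpN' : ¬ p ∣ N / p := by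
        intro h
        obtain ⟨c, hc⟩ := h
        have h1 : N = p * (N / p) := (Nat.mul_div_cancel' hpN).symm
        have h2 : p * p ∣ N := ⟨c, by rw [h1, hc]; ring⟩
        exact hpp.one_lt.ne' (Nat.isUnit_iff.mp (hsq p h2))
      have hocc2 : m59e_Occ p W S (N / p / q) :=
        hFL p hp W hΔ hW 𝒪 hp𝒪 ρ hT S (N / p) q hS h2S hsq' hNS' hq hqp hqN' hpN'
          hunr hhard (fun ℓ hℓ hℓp hℓd => hall ℓ hℓ hℓp (dvd_trans hℓd hdiv)) hoccp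
      have hdiv2 : N / p / q ∣ N / q := by
        rw [Nat.div_div_eq_div_mul, mul_comm, ← Nat.div_div_eq_div_mul]
        exact Nat.div_dvd_of_dvd (by
          have h1 : p ∣ q * (N / q) := by rwa [Nat.mul_div_cancel' hqN]
          rcases (Nat.Prime.dvd_mul hpp).mp h1 with h | h
          · exact absurd ((Nat.prime_dvd_prime_iff_eq hpp hq).mp h).symm hqp
          · exact h)
      have hNq : N / q ∣ N := Nat.div_dvd_of_dvd hqN
      exact m59e_occ_mono p W S hdiv2 (Nat.div_pos (Nat.le_of_dvd hNpos hqN) hq.pos)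
        (fun r hr hrd => hNS r hr (dvd_trans hrd hNq)) hocc2
    · -- every form is `p`-new: [LOW-core] in contrapositive, then the ordinary mode
      have hpeu : ¬ Peu (ResidueField 𝒪) ρ.residual p := fun hP =>
        hoccp (hLC p hp W hΔ hW 𝒪 hp𝒪 ρ hT S N hS h2S hsq hNS hpN hP hocc)
      have hlift := hMo p hp W hΔ hW 𝒪 hp𝒪 ρ hT S N q hS h2S hsq hNS hq hqp hqN hpN hbad hoccp
        hpeu hunr hhard hall hocc
      exact hR p hp W S N q hS.1 hsq hNS hq hqp hq2 hqN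
        (m59m_nonEis_of_tate hp𝒪 hT S N hsq.ne_zero) hlift
  · exact hFL p hp W hΔ hW 𝒪 hp𝒪 ρ hT S N q hS h2S hsq hNS hq hqp hqN hpN hunr hhard hall hocc

/-- **[HARD], second wiring** (rigidifier at `p = 3` handled at the `Occ` level). -/
theorem m59m_hard_of2 (Peu : m59e_PeuPred) (hLC : m59e_LowCore_stmt Peu)
    (hMf : m59m_MachFlatR_stmt) (hMo : m59m_MachOrd_stmt Peu) (hR : m59m_ReadOffG_stmt)
    (hMz : m59m_Mazur_stmt) (hE : m59e_EntryExt_stmt) (hRg : m59m_Rigidifier_stmt) :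
    m59m_Hard_stmt :=
  m59m_hard_of_flatLower Peu hLC (m59m_flatLower_of hMf hR hMz hE hRg) hMo hR

end Fermat.Agent.M59
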