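import Fermat.Agent.M59.S38g.MachSeams
import Fermat.Agent.TW.Top.CInput

/-!
M59 / box [C + S38g], cell [HARD], flat mode: the TOP adapter [C-INPUT] in the context `m59m_Ctx`
(helper14).  Prefix `m59m_`.  Twin of main's `twt_cinput` (`TW/Top/CInput.lean`).

`m59m_cinput` : from `hC : m59m_Ctx p N q S θ ρ̄ Sram` and a coefficient field `k'` over `k` in which
the quadratics over `k` split, the framed residual representation `rb` over `k'` with
`s56a_Hyp p rb`, compatibility with `algebraMap ∘ θ`, `Smin = insert p Sram` EXACTLY the ramified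
set away from `p`, the properties of the hard primes `m59m_Th p N Sram` (in `S`, outside `Smin`,
`≡ 1 mod p`, decomposition groups scalar), and the harmless primes transported to `rb`.
-/

set_option autoImplicit false
set_option linter.style.haveILetI false
set_option linter.unusedSectionVars false

open scoped TensorProduct

open Polynomial CuspForm IsLocalRing Fermat.Agent.TW Fermat.Agent.S53 Fermat.Agent.S56

namespace Fermat.Agent.M59

/-- **[C-INPUT] in the context `m59m_Ctx`.** -/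
theorem m59m_cinput {p : ℕ} [Fact p.Prime] {k k' : Type} [Field k] [Field k'] [Algebra k k']
    [CharP k' p] {N q : ℕ} [NeZero N] {S : Finset ℕ}
    {θ : heckeAlgebra N 2 (↑S : Set ℕ) →+* k} {ρbar : ResidualGaloisRep k} {Sram : Finset ℕ}
    (hC : m59m_Ctx p N q S θ ρbar Sram)
    (hq : ∀ g : k[X], g.Monic → g.natDegree = 2 →
      ∃ α β : k', g.map (algebraMap k k') = (X - C α) * (X - C β)) :
    ∃ rb : FramedResidual k',
      (ρbar.baseChange k').IsEquiv rb.toResidualGaloisRep ∧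
      s56a_Hyp p rb.toResidualGaloisRep ∧
      twt_Compat ((algebraMap k k').comp θ) rb.toResidualGaloisRep ∧
      (∀ ℓ : ℕ, ℓ.Prime → ℓ ≠ p →
        (ℓ ∈ insert p Sram ↔ ¬ rb.toResidualGaloisRep.IsUnramifiedAt ℓ)) ∧
      (∀ ℓ ∈ m59m_Th p N Sram, (ℓ : ℕ) ∈ S) ∧
      (∀ ℓ ∈ m59m_Th p N Sram, (ℓ : ℕ) ∉ insert p Sram) ∧
      (∀ ℓ ∈ m59m_Th p N Sram, (ℓ : ℕ) ≠ p ∧ p ∣ (ℓ : ℕ) - 1) ∧
      (∀ ℓ ∈ m59m_Th p N Sram, ∀ A : ValuationSubring twt_Qb, A.LiesOverPrime (ℓ : ℕ) →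
        ∀ σ ∈ A.decompositionSubgroup ℚ, ∃ a : k', rb σ = Matrix.scalar (Fin 2) a) ∧
      (∀ ℓ : ℕ, ℓ.Prime → ℓ ∣ N → ℓ ∉ insert p Sram → ℓ % p ≠ 1 →
        m59m_IsHarmless p rb.toResidualGaloisRep ℓ) := by
  have hN0 : N ≠ 0 := NeZero.ne N
  have hp : p.Prime := Fact.out
  have hp2 : p ≠ 2 := hC.p_ne_two
  obtain ⟨rb, hrb⟩ := exists_framedResidual (ρbar.baseChange k')
  obtain ⟨hyp', hunr', hchar'⟩ := s56am_hypEquiv p k' (ρbar.baseChange k') rb hrb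
    (twt_ci_hyp ρbar hp2 hC.NS θ hC.compat hC.abs hC.tw hq)
  obtain ⟨e⟩ := hrb
  have hTh : ∀ ℓ ∈ m59m_Th p N Sram, (ℓ : ℕ) ∣ N ∧ (ℓ : ℕ) ∉ Sram ∧ (ℓ : ℕ) % p = 1 :=
    fun ℓ hℓ => (m59m_mem_Th hN0 Sram ℓ).mp hℓ
  have hThp : ∀ ℓ ∈ m59m_Th p N Sram, (ℓ : ℕ) ≠ p := fun ℓ hℓ h => hC.pN (h ▸ (hTh ℓ hℓ).1)
  have hThd : ∀ ℓ ∈ m59m_Th p N Sram, p ∣ (ℓ : ℕ) - 1 := fun ℓ hℓ =>
    (m59m_Th_spec hp hN0 hC.pN Sram ℓ hℓ).2
  have hThunr : ∀ ℓ ∈ m59m_Th p N Sram, ρbar.IsUnramifiedAt (ℓ : ℕ) := by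
    intro ℓ hℓ
    by_contra hr
    exact (hTh ℓ hℓ).2.1 ((hC.ram ℓ ℓ.2 (hThp ℓ hℓ)).mpr hr)
  refine ⟨rb, ⟨e⟩, hyp', ?_, ?_, ?_, ?_, ?_, ?_, ?_⟩
  · -- compatibility
    intro ℓ hℓ hℓN hℓS A hA σ hσ
    rw [← hchar' σ]
    exact twt_ci_compat ρbar θ hC.compat ℓ hℓ hℓN hℓS A hA σ hσ
  · -- `Smin = insert p Sram`
    intro ℓ hℓ hℓp
    rw [← hunr' ℓ, twt_ci_unram_iff, Finset.mem_insert]
    constructor
    · rintro (h | h)
      · exact absurd h hℓp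
      · exact (hC.ram ℓ hℓ hℓp).mp h
    · intro h
      exact Or.inr ((hC.ram ℓ hℓ hℓp).mpr h)
  · intro ℓ hℓ
    exact hC.NS ℓ ℓ.2 (hTh ℓ hℓ).1
  · intro ℓ hℓ hmem
    rw [Finset.mem_insert] at hmem
    rcases hmem with h | h
    · exact hThp ℓ hℓ h
    · exact (hTh ℓ hℓ).2.1 h
  · intro ℓ hℓ
    exact ⟨hThp ℓ hℓ, hThd ℓ hℓ⟩
  · intro ℓ hℓ A hA σ hσ
    haveI : Fact (ℓ : ℕ).Prime := ⟨ℓ.2⟩
    obtain ⟨c, hc⟩ := twt_ci_decomp_scalar ρbar hp (hThd ℓ hℓ) (hThunr ℓ hℓ)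
      (hC.hard ℓ ℓ.2 (hTh ℓ hℓ).1 (hTh ℓ hℓ).2.1 (hTh ℓ hℓ).2.2) A hA σ hσ
    refine ⟨algebraMap k k' c, ?_⟩
    have hbc : ∀ x : k' ⊗[k] ρbar.V,
        (ρbar.baseChange k').ρ σ x = algebraMap k k' c • x := by
      intro x
      change (ρbar.ρ σ).baseChange k' x = _
      rw [hc]
      induction x using TensorProduct.induction_on with
      | zero => simp
      | tmul a v =>
        rw [LinearMap.baseChange_tmul, LinearMap.smul_apply, Module.End.one_apply,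
          TensorProduct.tmul_smul, algebraMap_smul]
      | add x y hx hy => rw [map_add, hx, hy, smul_add]
    have key : ∀ y : Fin 2 → k', (rb σ).mulVec y = algebraMap k k' c • y := by
      intro y
      obtain ⟨x, hx⟩ := e.toLinearEquiv.surjective (y : rb.toResidualGaloisRep.V)
      have h3 := e.map_apply σ x
      rw [hbc x, map_smul, hx] at h3
      exact h3.symm
    ext i j
    have h6 := congrFun (key (Pi.single j 1)) i
    simp only [Matrix.mulVec_single_one, Matrix.col_apply, Pi.smul_apply, smul_eq_mul] at h6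
    rw [h6, Matrix.scalar_apply, Matrix.diagonal_apply]
    by_cases hij : i = j <;> simp [hij]
  · -- the harmless primes
    intro ℓ hℓ hℓN hℓmin h1
    have hℓr : ℓ ∉ Sram := fun h => hℓmin (Finset.mem_insert_of_mem h)
    obtain ⟨h2, h3⟩ := hC.harmless ℓ hℓ hℓN hℓr h1
    refine ⟨h2, fun A hA σ hσ => ?_⟩
    rw [← hchar' σ]
    change (LinearMap.charpoly ((ρbar.ρ σ).baseChange k')).coeff 1 ≠ 0
    rw [LinearMap.charpoly_baseChange, Polynomial.coeff_map]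
    intro h0
    exact h3 A hA σ hσ ((map_eq_zero_iff _ (algebraMap k k').injective).mp h0)

end Fermat.Agent.M59
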