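import Fermat.Agent.M59.S38g.MachEntry
import Fermat.Agent.M59.EP.Twin.DatumM1
import Fermat.Agent.TW.Top.DatumLocal

/-!
M59 / box [C + S38g]: the cell [RAM-N] `m59m_RamN_stmt` of `M59/S38g/MachEntry.lean` is CLOSED
(helper14).  Prefix `m59m_`.

A residual representation `ρ̄` compatible with an eigensystem `θ` of level `N` is unramified outside
`N p`: the Hecke–Galois datum of the base package (`m59epw_dt_M1F`) is unramified there
(`twt_dl_unram`), and its residual representation is `ρ̄ ⊗ k_T` (`twt_re_datum`).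
-/

set_option autoImplicit false
set_option linter.style.haveILetI false

open Polynomial CuspForm IsLocalRing Fermat.Agent.TW

namespace Fermat.Agent.M59

/-- **[RAM-N]** is a theorem. -/
theorem m59m_ramN : m59m_RamN_stmt := by
  intro p hpF hp2 𝒪 _ _ _ _ _ _ hp𝒪 N _ S hpS hNS θ ρbar hcompat habs ℓ hℓ hℓp hℓN
  obtain ⟨B, -⟩ := m59epw_dt_M1F p hp2 𝒪 hp𝒪 N S hpS hNS θ ρbar hcompat habs
  have h1 : B.H.ρ.IsUnramifiedAt ℓ := twt_dl_unram hpF.out hp𝒪 hpS hNS B.H ℓ hℓ hℓN hℓp
  have h2 : B.H.ρ.residual.IsUnramifiedAt ℓ := m59m_residual_unram h1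
  obtain ⟨e⟩ := twt_re_datum B.H ρbar hcompat
  letI : Algebra (ResidueField 𝒪) (ResidueField B.T) :=
    (ResidueField.map (algebraMap 𝒪 B.T)).toAlgebra
  have h3 : (ρbar.baseChangeAlong (ResidueField.map (algebraMap 𝒪 B.T))).IsUnramifiedAt ℓ := by
    intro A hA σ hσ
    refine LinearMap.ext fun x => ?_
    obtain ⟨y, rfl⟩ := e.toLinearEquiv.surjective x
    have h4 := e.map_apply σ y
    rw [h2 A hA σ hσ, Module.End.one_apply] at h4
    rw [Module.End.one_apply]
    exact h4.symm
  exact (twt_ci_unram_iff (k' := ResidueField B.T) ρbar ℓ).mp h3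

/-- **[MACH-g] flat mode at a rigid level from [ENTRY-ext] and the native machine.** -/
theorem m59m_machFlatR_of2 (hE : m59e_EntryExt_stmt) (hM : m59m_Machine_stmt) :
    m59m_MachFlatR_stmt :=
  m59m_machFlatR_of hE m59m_ramN hM

end Fermat.Agent.M59
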