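import Fermat.Agent.M59.S38g.Big.M2LG
import Fermat.Agent.M59.S38g.CTop.PatchLv
import Fermat.Agent.M59.S38g.RamN
import Fermat.Agent.M59.S38g.RigidifierOf

/-!
M59 / box [C + S38g], cell [HARD]: THE NATIVE MACHINE (FLAT MODE) IS CLOSED (helper14, box owner).
Prefix `m59m_`.

* `m59m_machine : m59m_Machine_stmt`   — no hypothesis: `m59mb_m2lg` (big-system twin, [E] + [A]),
  helper21's `m59ct_patchLv` (block [C]), `m59m_machine_of_lvStmt` (patching + output).
* `m59m_machFlatR_of3 : m59e_EntryExt_stmt → m59m_MachFlatR_stmt`.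
* `m59m_hard_of4 (Peu) : m59e_LowCore_stmt Peu → m59m_MachOrd_stmt Peu → m59m_ReadOffG_stmt →
    m59m_Mazur_stmt → m59e_EntryExt_stmt → m59m_Hard_stmt`  — [HARD] from the seams that are still
  open: [LOW-core], the ordinary mode, [RO-g], [MAZUR], [ENTRY-ext].
-/

set_option autoImplicit false

namespace Fermat.Agent.M59

/-- **the native machine, flat mode.** -/
theorem m59m_machine : m59m_Machine_stmt :=
  m59m_machine_of_lvStmt (m59ct_patchLv m59mb_m2lg)

/-- **[MACH-g] flat mode at a rigid level from [ENTRY-ext].** -/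
theorem m59m_machFlatR_of3 (hE : m59e_EntryExt_stmt) : m59m_MachFlatR_stmt :=
  m59m_machFlatR_of2 hE m59m_machine

/-- **[HARD], fourth wiring**: the flat mode discharged. -/
theorem m59m_hard_of4 (Peu : m59e_PeuPred) (hLC : m59e_LowCore_stmt Peu)
    (hMo : m59m_MachOrd_stmt Peu) (hR : m59m_ReadOffG_stmt) (hMz : m59m_Mazur_stmt)
    (hE : m59e_EntryExt_stmt) : m59m_Hard_stmt :=
  m59m_hard_of3 Peu hLC (m59m_machFlatR_of3 hE) hMo hR hMz hE

end Fermat.Agent.M59
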